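/-
PROGRAMME MP, chapter FIN (helper3).  `FixedDiv3` = step (c) of (FIN): FINITENESS OF THE FIXED EFFECTIVE
DIVISORS of bounded degree under a "Frobenius-semilinear" automorphism.

Setting: `F / K` with `H : LHyp K F`, `g : SemilinearAut K F` with `IsFrob g Q`
(`baseAut g c = c ^ Q`, `2 ≤ Q`), fixing a NON-CONSTANT function `x`.

* `IsFrob g Q`, `IsFrob.pow`, `pow_smul_eq` (`g ^ i • x = x`), `pow_smul_pic_eq`;
* `finite_ord_ne_zero` : a nonzero function has finitely many zeros and poles;
* `finite_fixed_places` : `{P | g • P = P}` is finite (`x(P) ∈ {c | c ^ Q = c} ∪ {∞}`);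
* `exists_pow_smul_eq` : on a finite `g`-stable set of places every place is fixed by some
  `g ^ i`, `1 ≤ i ≤ card`;
* `finite_fixed_divisors` : `{D | 0 ≤ D ∧ g • D = D ∧ degree D ≤ N}` is finite.
-/
import Mathlib
import Fermat.Prelude.Def_AlgebraicCurve_BaseChangeGalois
import Fermat.Agent.RR.LSpace
import Fermat.Agent.X0.FFPlace
import Fermat.Agent.MW.EMB.GalVal1

set_option autoImplicit false
set_option linter.unusedSectionVars false

open AlgebraicCurve

namespace Fermat.Agent.MP.FIN.FixedDiv3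

open Fermat.Agent.RR.LSpace Fermat.Agent.X0.FF Fermat.Agent.MW.EMB.Value6

variable {K F : Type*} [Field K] [Field F] [Algebra K F]

/-- `g` acts on the constants as `c ↦ c ^ Q`. -/
def IsFrob (g : SemilinearAut K F) (Q : ℕ) : Prop :=
  ∀ c : K, SemilinearAut.baseAut g c = c ^ Q

theorem IsFrob.pow {g : SemilinearAut K F} {Q : ℕ} (h : IsFrob g Q) (i : ℕ) :
    IsFrob (g ^ i) (Q ^ i) := by
  induction i with
  | zero =>
    intro c
    rw [pow_zero, pow_zero, pow_one, SemilinearAut.baseAut_one]
    rfl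
  | succ i ih =>
    intro c
    rw [pow_succ, SemilinearAut.baseAut_mul, RingAut.mul_apply, h c, ih (c ^ Q), ← pow_mul,
      pow_succ, mul_comm]

theorem pow_smul_eq {α : Type*} [MulAction (SemilinearAut K F) α] {g : SemilinearAut K F} {x : α}
    (hx : g • x = x) (i : ℕ) : g ^ i • x = x := by
  induction i with
  | zero => rw [pow_zero, one_smul]
  | succ i ih => rw [pow_succ, mul_smul, hx, ih]

/-- A nonzero function has finitely many zeros and poles. -/
theorem finite_ord_ne_zero (H : LHyp K F) {f : F} (hf : f ≠ 0) :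
    {P : Place K F | P.ord f ≠ 0}.Finite := by
  refine (divOf H hf).support.finite_toSet.subset fun P hP => ?_
  rw [Finset.mem_coe, Finsupp.mem_support_iff, divOf_apply]
  exact hP

/-- The solutions of `c ^ Q = c` are finite in number (`2 ≤ Q`). -/
theorem finite_pow_eq_self {Q : ℕ} (hQ : 2 ≤ Q) : {c : K | c ^ Q = c}.Finite := by
  classical
  have hne : (Polynomial.X ^ Q - Polynomial.X : Polynomial K) ≠ 0 :=
    FiniteField.X_pow_card_sub_X_ne_zero K (by omega)
  refine (Polynomial.X ^ Q - Polynomial.X : Polynomial K).roots.toFinset.finite_toSet.subset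
    fun c hc => ?_
  rw [Finset.mem_coe, Multiset.mem_toFinset, Polynomial.mem_roots hne, Polynomial.IsRoot,
    Polynomial.eval_sub, Polynomial.eval_pow, Polynomial.eval_X, sub_eq_zero]
  exact hc

/-- **The fixed places of a Frobenius-semilinear automorphism fixing a non-constant function are
finite in number.** -/
theorem finite_fixed_places (H : LHyp K F) (g : SemilinearAut K F) {Q : ℕ} (hQ : 2 ≤ Q)
    (hg : IsFrob g Q) {x : F} (hx : g • x = x) (hnc : ∀ c : K, x ≠ algebraMap K F c) :
    {P : Place K F | g • P = P}.Finite := by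
  have hx0 : x ≠ 0 := fun h => hnc 0 (by rw [h, map_zero])
  have hsub : ∀ c : K, x - algebraMap K F c ≠ 0 := fun c => sub_ne_zero.mpr (hnc c)
  have hfin : ({P : Place K F | P.ord x ≠ 0} ∪
      ⋃ c ∈ {c : K | c ^ Q = c}, {P : Place K F | P.ord (x - algebraMap K F c) ≠ 0}).Finite :=
    (finite_ord_ne_zero H hx0).union
      ((finite_pow_eq_self hQ).biUnion fun c _ => finite_ord_ne_zero H (hsub c))
  refine hfin.subset fun P hP => ?_
  replace hP : g • P = P := hP
  by_cases hmem : x ∈ P.toValuationSubring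
  · right
    have h1 := Fermat.Agent.MW.EMB.GalVal1.valF_smul H g P x
    rw [hP, hx, hg] at h1
    rw [Set.mem_iUnion₂]
    refine ⟨valF H P x, h1.symm, ?_⟩
    show P.ord (x - algebraMap K F (valF H P x)) ≠ 0
    exact (ord_sub_valF_pos H P hmem (hnc _)).ne'
  · left
    show P.ord x ≠ 0
    intro h0
    exact hmem (ffp_mem_of_ord_nonneg P h0.ge)

/-- On a finite `g`-stable set of places every place is fixed by a power `g ^ i`,
`1 ≤ i ≤ card`. -/
theorem exists_pow_smul_eq (g : SemilinearAut K F) (S : Finset (Place K F))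
    (hS : ∀ P ∈ S, g • P ∈ S) {P : Place K F} (hP : P ∈ S) :
    ∃ i : ℕ, 1 ≤ i ∧ i ≤ S.card ∧ g ^ i • P = P := by
  have hmem : ∀ j : ℕ, g ^ j • P ∈ S := by
    intro j
    induction j with
    | zero => rwa [pow_zero, one_smul]
    | succ j ih =>
      rw [pow_succ', mul_smul]
      exact hS _ ih
  have hcard : S.card < (Finset.range (S.card + 1)).card := by
    rw [Finset.card_range]; omega
  obtain ⟨a, ha, b, hb, hab, heq⟩ :=
    Finset.exists_ne_map_eq_of_card_lt_of_maps_to hcard (f := fun j => g ^ j • P)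
      (fun j _ => hmem j)
  rw [Finset.mem_range] at ha hb
  have key : ∀ a b : ℕ, a < b → b < S.card + 1 → g ^ a • P = g ^ b • P →
      ∃ i : ℕ, 1 ≤ i ∧ i ≤ S.card ∧ g ^ i • P = P := by
    intro a b hlt hb heq
    refine ⟨b - a, by omega, by omega, ?_⟩
    have h1 : g ^ b = g ^ a * g ^ (b - a) := by
      rw [← pow_add]; congr 1; omega
    rw [h1, mul_smul] at heq
    exact (MulAction.injective (g ^ a) heq).symm
  rcases lt_or_gt_of_ne hab with h | h
  · exact key a b h hb heq
  · exact key b a h ha heq.symm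

/-- The support of a `g`-fixed divisor is `g`-stable. -/
theorem smul_mem_support (g : SemilinearAut K F) {D : Divisor K F} (hD : g • D = D)
    {P : Place K F} (hP : P ∈ D.support) : g • P ∈ D.support := by
  rw [Finsupp.mem_support_iff] at hP ⊢
  have h1 := SemilinearAut.divisor_smul_apply_smul g D P
  rw [hD] at h1
  rwa [h1]

theorem card_support_le (H : LHyp K F) {D : Divisor K F} (hD : 0 ≤ D) :
    (D.support.card : ℤ) ≤ Divisor.degree D := by
  rw [degree_eq_sum H, Finset.card_eq_sum_ones, Nat.cast_sum]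
  refine Finset.sum_le_sum fun v hv => ?_
  have h1 : 0 ≤ D v := by simpa using hD v
  have h2 : D v ≠ 0 := Finsupp.mem_support_iff.mp hv
  push_cast
  omega

theorem apply_le_degree (H : LHyp K F) {D : Divisor K F} (hD : 0 ≤ D) (v : Place K F) :
    D v ≤ Divisor.degree D := by
  have hnn : ∀ w ∈ D.support, 0 ≤ D w := fun w _ => by simpa using hD w
  by_cases hv : v ∈ D.support
  · rw [degree_eq_sum H]
    exact Finset.single_le_sum hnn hv
  · rw [Finsupp.notMem_support_iff.mp hv]
    exact degree_nonneg H hD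

/-- **The `g`-fixed effective divisors of degree `≤ N` are finite in number.** -/
theorem finite_fixed_divisors (H : LHyp K F) (g : SemilinearAut K F) {Q : ℕ} (hQ : 2 ≤ Q)
    (hg : IsFrob g Q) {x : F} (hx : g • x = x) (hnc : ∀ c : K, x ≠ algebraMap K F c) (N : ℕ) :
    {D : Divisor K F | 0 ≤ D ∧ g • D = D ∧ Divisor.degree D ≤ N}.Finite := by
  classical
  have hT : (⋃ i ∈ Finset.Icc 1 N, {P : Place K F | g ^ i • P = P}).Finite := by
    refine Set.Finite.biUnion (Finset.finite_toSet _) fun i hi => ?_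
    rw [Finset.mem_coe, Finset.mem_Icc] at hi
    have hQi : 2 ≤ Q ^ i := by
      calc 2 ≤ Q := hQ
        _ = Q ^ 1 := (pow_one Q).symm
        _ ≤ Q ^ i := Nat.pow_le_pow_right (by omega) hi.1
    exact finite_fixed_places H (g ^ i) hQi (hg.pow i) (pow_smul_eq hx i) hnc
  refine (hT.toFinset.finsupp fun _ => Finset.Icc (0 : ℤ) N).finite_toSet.subset ?_
  rintro D ⟨hD0, hDg, hDN⟩
  rw [Finset.mem_coe, Finset.mem_finsupp_iff]
  refine ⟨fun P hP => ?_, fun P _ => ?_⟩
  · obtain ⟨i, hi1, hi2, hi3⟩ := exists_pow_smul_eq g D.support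
      (fun P hP => smul_mem_support g hDg hP) hP
    rw [Set.Finite.mem_toFinset, Set.mem_iUnion₂]
    refine ⟨i, ?_, hi3⟩
    rw [Finset.mem_Icc]
    have := card_support_le H hD0
    refine ⟨hi1, ?_⟩
    have h3 : (i : ℤ) ≤ N := le_trans (le_trans (by exact_mod_cast hi2) this) hDN
    exact_mod_cast h3
  · rw [Finset.mem_Icc]
    exact ⟨by simpa using hD0 P, le_trans (apply_le_degree H hD0 P) hDN⟩

end Fermat.Agent.MP.FIN.FixedDiv3
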