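/-
PROGRAMME MP, chapter FIN (helper3).  `FinMain3` = THEOREM (FIN):

  `F / K` a function field with `H : LHyp K F` and Riemann's inequality `hR : RiemannHyp K F`,
  `φ : SemilinearAut K F` with `baseAut φ c = c ^ q` (`2 ≤ q`) fixing a NON-CONSTANT function `x`.
  Then `{y : Pic0 K F | φ • y = y}` is FINITE.

Proof (no Lang lemma needed): a pole `P₀` of `x` is fixed by a power `g = φ ^ m` (`m ≥ 1`, `φ` permutes
the finitely many poles of `x`).  For a `g`-fixed class `y` the NORMAL FORM `normalFormPic P₀ y`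
(`J/DESC/NormalForm10`: the unique effective divisor `E` with `E - minPole·P₀ ∈ y`, `minPole` minimal)
is `g`-fixed by uniqueness (`normalFormPic_smul`), effective, of degree `minPolePic y ≤ γ⁺` (Riemann),
and determines `y`; the `g`-fixed effective divisors of bounded degree are finite in number
(`FixedDiv3.finite_fixed_divisors`).  Finally `Fix φ ⊆ Fix (φ ^ m)`.

* `minPolePic_le` : uniform bound for `minPolePic`;
* `finite_fixed_of_fixed_place` : (FIN) for `g` fixing a place;
* `exists_pole`, `exists_pow_fixing_pole`;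
* **`finite_fixed`** : (FIN).
-/
import Mathlib
import Fermat.Prelude.Def_AlgebraicCurve_BaseChangeGalois
import Fermat.Agent.RR.LSpace
import Fermat.Agent.X0.FFPlace
import Fermat.Agent.J.DESC.NormalForm10
import Fermat.Agent.MP.FIN.FixedDiv3

set_option autoImplicit false
set_option linter.unusedSectionVars false

open AlgebraicCurve

namespace Fermat.Agent.MP.FIN.FinMain3

open Fermat.Agent.RR.LSpace Fermat.Agent.X0.FF Fermat.Agent.J.DESC.NormalForm10
open Fermat.Agent.MP.FIN.FixedDiv3

variable {K F : Type*} [Field K] [Field F] [Algebra K F]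

/-- Uniform bound for the least pole order of a class (Riemann's inequality). -/
theorem exists_minPolePic_le (H : LHyp K F) (hR : RiemannHyp K F) (P₀ : Place K F) :
    ∃ B : ℕ, ∀ y : Pic0 K F, minPolePic H hR P₀ y ≤ B := by
  have hR' := hR
  obtain ⟨γ, hγ⟩ := hR'
  refine ⟨γ.toNat, fun y => ?_⟩
  refine minPole_le H hR P₀ _ fun hbot => ?_
  have h1 := hγ (shift P₀ ((Quotient.out y : Divisor.degZero (K := K) (F := F)) : Divisor K F)
    γ.toNat)
  rw [hbot, finrank_bot, degree_shift H,
    Divisor.mem_degZero.mp (Quotient.out y : Divisor.degZero (K := K) (F := F)).2] at h1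
  have h2 : γ ≤ (γ.toNat : ℤ) := Int.self_le_toNat γ
  push_cast at h1
  omega

/-- **(FIN) for an automorphism fixing a place.** -/
theorem finite_fixed_of_fixed_place (H : LHyp K F) (hR : RiemannHyp K F) (g : SemilinearAut K F)
    {Q : ℕ} (hQ : 2 ≤ Q) (hg : IsFrob g Q) {x : F} (hx : g • x = x)
    (hnc : ∀ c : K, x ≠ algebraMap K F c) {P₀ : Place K F} (hP₀ : g • P₀ = P₀) :
    {y : Pic0 K F | g • y = y}.Finite := by
  obtain ⟨B, hB⟩ := exists_minPolePic_le H hR P₀
  have hfin := finite_fixed_divisors H g hQ hg hx hnc B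
  refine Set.Finite.of_finite_image (f := normalFormPic H hR P₀) (hfin.subset ?_) ?_
  · rintro _ ⟨y, hy, rfl⟩
    replace hy : g • y = y := hy
    refine ⟨normalFormPic_nonneg H hR P₀ y, ?_, ?_⟩
    · rw [← normalFormPic_smul H hR P₀ g hP₀ y, hy]
    · rw [degree_normalFormPic]
      exact_mod_cast hB y
  · intro y _ y' _ hyy'
    have hmin : minPolePic H hR P₀ y = minPolePic H hR P₀ y' := by
      have h1 := degree_normalFormPic H hR P₀ y
      have h2 := degree_normalFormPic H hR P₀ y'
      rw [hyy'] at h1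
      have h3 : ((minPolePic H hR P₀ y : ℕ) : ℤ) = (minPolePic H hR P₀ y' : ℕ) := by
        rw [← h1, ← h2]
      exact_mod_cast h3
    have h1 := mk_normalFormPic' H hR P₀ y
    have h2 := mk_normalFormPic' H hR P₀ y'
    rw [← h1, ← h2]
    refine congrArg Pic0.mk (Subtype.ext ?_)
    show normalFormPic H hR P₀ y - Finsupp.single P₀ ((minPolePic H hR P₀ y : ℕ) : ℤ) =
      normalFormPic H hR P₀ y' - Finsupp.single P₀ ((minPolePic H hR P₀ y' : ℕ) : ℤ)
    rw [hyy', hmin]

/-- A non-constant function has a pole. -/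
theorem exists_pole (H : LHyp K F) {x : F} (hnc : ∀ c : K, x ≠ algebraMap K F c) :
    ∃ P : Place K F, P.ord x < 0 := by
  by_contra hno
  push_neg at hno
  obtain ⟨c, hc⟩ := eq_algebraMap_of_forall_ord_nonneg H hno
  exact hnc c hc

/-- A pole of `x` is fixed by a power `φ ^ m`, `m ≥ 1`, if `φ • x = x`. -/
theorem exists_pow_fixing_pole (H : LHyp K F) (φ : SemilinearAut K F) {x : F} (hx : φ • x = x)
    (hx0 : x ≠ 0) {P : Place K F} (hP : P.ord x < 0) :
    ∃ m : ℕ, 1 ≤ m ∧ φ ^ m • P = P := by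
  classical
  have hfin : {P : Place K F | P.ord x < 0}.Finite :=
    (finite_ord_ne_zero H hx0).subset fun P (hP : P.ord x < 0) => hP.ne
  have hstab : ∀ P ∈ hfin.toFinset, φ • P ∈ hfin.toFinset := by
    intro P hP
    rw [Set.Finite.mem_toFinset] at hP ⊢
    show (φ • P).ord x < 0
    have h1 := SemilinearAut.ord_smul φ P x
    rw [hx] at h1
    rw [h1]
    exact hP
  obtain ⟨m, hm1, _, hm⟩ := exists_pow_smul_eq φ hfin.toFinset hstab
    ((Set.Finite.mem_toFinset hfin).mpr hP)
  exact ⟨m, hm1, hm⟩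

/-- **THEOREM (FIN).**  A Frobenius-semilinear automorphism `φ` (`baseAut φ c = c ^ q`, `2 ≤ q`) of
a function field `F / K` (with `LHyp` and Riemann's inequality) fixing a non-constant function has
only finitely many fixed points on `Pic⁰`. -/
theorem finite_fixed (H : LHyp K F) (hR : RiemannHyp K F) (φ : SemilinearAut K F) {q : ℕ}
    (hq : 2 ≤ q) (hφ : ∀ c : K, SemilinearAut.baseAut φ c = c ^ q) {x : F} (hx : φ • x = x)
    (hnc : ∀ c : K, x ≠ algebraMap K F c) :
    {y : Pic0 K F | φ • y = y}.Finite := by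
  have hx0 : x ≠ 0 := fun h => hnc 0 (by rw [h, map_zero])
  obtain ⟨P₀, hP₀⟩ := exists_pole H hnc
  obtain ⟨m, hm1, hm⟩ := exists_pow_fixing_pole H φ hx hx0 hP₀
  have hQ : 2 ≤ q ^ m := by
    calc 2 ≤ q := hq
      _ = q ^ 1 := (pow_one q).symm
      _ ≤ q ^ m := Nat.pow_le_pow_right (by omega) hm1
  have hfrob : IsFrob (φ ^ m) (q ^ m) := IsFrob.pow (g := φ) hφ m
  refine (finite_fixed_of_fixed_place H hR (φ ^ m) hQ hfrob (pow_smul_eq hx m) hnc hm).subset ?_
  intro y (hy : φ • y = y)
  exact pow_smul_eq hy m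

end Fermat.Agent.MP.FIN.FinMain3
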