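/-
PROGRAMME MP, chapter FIN (helper3).  `PlaceOrbit3` = FINITE ORBITS on places, divisors and classes
under a semilinear automorphism `g` of `F / L` (`H : LHyp L F`) which fixes a NON-CONSTANT function
`x` and whose base automorphism has FINITE ORBITS on `L` (e.g. `L = ℚ̄`, `g = arithmeticGalois σ`):

* `exists_pow_smul_eq_of_ord_ne_zero` : a zero/pole of a `g`-fixed function is fixed by some
  `g ^ m`, `m ≥ 1`;
* `exists_pow_smul_place_eq` : every place is fixed by some `g ^ m`, `m ≥ 1`;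
* `exists_pow_smul_divisor_eq`, `exists_pow_smul_pic_eq` : the same for divisors and classes.
-/
import Mathlib
import Fermat.Agent.MP.FIN.FixedDiv3

set_option autoImplicit false
set_option linter.unusedSectionVars false

open AlgebraicCurve

namespace Fermat.Agent.MP.FIN.PlaceOrbit3

open Fermat.Agent.RR.LSpace Fermat.Agent.X0.FF Fermat.Agent.MW.EMB.Value6
open Fermat.Agent.MP.FIN.FixedDiv3

variable {L F : Type*} [Field L] [Field F] [Algebra L F]

/-- A zero or pole of a `g`-fixed nonzero function is fixed by some `g ^ m`, `m ≥ 1`. -/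
theorem exists_pow_smul_eq_of_ord_ne_zero (H : LHyp L F) (g : SemilinearAut L F) {f : F}
    (hf0 : f ≠ 0) (hf : g • f = f) {P : Place L F} (hP : P.ord f ≠ 0) :
    ∃ m : ℕ, 1 ≤ m ∧ g ^ m • P = P := by
  classical
  have hfin := finite_ord_ne_zero H hf0
  have hstab : ∀ Q ∈ hfin.toFinset, g • Q ∈ hfin.toFinset := by
    intro Q hQ
    rw [Set.Finite.mem_toFinset] at hQ ⊢
    show (g • Q).ord f ≠ 0
    have h1 := SemilinearAut.ord_smul g Q f
    rw [hf] at h1
    rw [h1]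
    exact hQ
  obtain ⟨m, hm1, _, hm⟩ := exists_pow_smul_eq g hfin.toFinset hstab
    ((Set.Finite.mem_toFinset hfin).mpr hP)
  exact ⟨m, hm1, hm⟩

/-- **Every place is fixed by a power of `g`.** -/
theorem exists_pow_smul_place_eq (H : LHyp L F) (g : SemilinearAut L F) {x : F}
    (hx : g • x = x) (hnc : ∀ c : L, x ≠ algebraMap L F c)
    (hL : ∀ c : L, ∃ m : ℕ, 1 ≤ m ∧ SemilinearAut.baseAut (g ^ m) c = c) (P : Place L F) :
    ∃ m : ℕ, 1 ≤ m ∧ g ^ m • P = P := by
  have hx0 : x ≠ 0 := fun h => hnc 0 (by rw [h, map_zero])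
  by_cases hmem : x ∈ P.toValuationSubring
  · obtain ⟨m1, hm1, hc⟩ := hL (valF H P x)
    have hsub : x - algebraMap L F (valF H P x) ≠ 0 := sub_ne_zero.mpr (hnc _)
    have hfix : g ^ m1 • (x - algebraMap L F (valF H P x)) =
        x - algebraMap L F (valF H P x) := by
      rw [smul_sub, pow_smul_eq hx m1, SemilinearAut.smul_algebraMap, hc]
    obtain ⟨i, hi1, hi⟩ := exists_pow_smul_eq_of_ord_ne_zero H (g ^ m1) hsub hfix
      (ord_sub_valF_pos H P hmem (hnc _)).ne'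
    refine ⟨m1 * i, Nat.one_le_iff_ne_zero.mpr (Nat.mul_ne_zero (by omega) (by omega)), ?_⟩
    rw [pow_mul]
    exact hi
  · refine exists_pow_smul_eq_of_ord_ne_zero H g hx0 hx fun h0 => ?_
    exact hmem (ffp_mem_of_ord_nonneg P h0.ge)

/-- Every divisor is fixed by a power of `g`. -/
theorem exists_pow_smul_divisor_eq (H : LHyp L F) (g : SemilinearAut L F) {x : F}
    (hx : g • x = x) (hnc : ∀ c : L, x ≠ algebraMap L F c)
    (hL : ∀ c : L, ∃ m : ℕ, 1 ≤ m ∧ SemilinearAut.baseAut (g ^ m) c = c) (D : Divisor L F) :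
    ∃ m : ℕ, 1 ≤ m ∧ g ^ m • D = D := by
  induction D using Finsupp.induction_linear with
  | zero => exact ⟨1, le_refl 1, smul_zero _⟩
  | add D₁ D₂ h₁ h₂ =>
    obtain ⟨m₁, hm₁, h₁⟩ := h₁
    obtain ⟨m₂, hm₂, h₂⟩ := h₂
    refine ⟨m₁ * m₂, Nat.one_le_iff_ne_zero.mpr (Nat.mul_ne_zero (by omega) (by omega)), ?_⟩
    rw [smul_add]
    congr 1
    · rw [pow_mul]
      exact pow_smul_eq h₁ m₂
    · rw [mul_comm, pow_mul]
      exact pow_smul_eq h₂ m₁
  | single P n =>
    obtain ⟨m, hm1, hm⟩ := exists_pow_smul_place_eq H g hx hnc hL P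
    exact ⟨m, hm1, by rw [SemilinearAut.smul_single, hm]⟩

/-- **Every class is fixed by a power of `g`.** -/
theorem exists_pow_smul_pic_eq (H : LHyp L F) (g : SemilinearAut L F) {x : F}
    (hx : g • x = x) (hnc : ∀ c : L, x ≠ algebraMap L F c)
    (hL : ∀ c : L, ∃ m : ℕ, 1 ≤ m ∧ SemilinearAut.baseAut (g ^ m) c = c) (u : Pic0 L F) :
    ∃ m : ℕ, 1 ≤ m ∧ g ^ m • u = u := by
  obtain ⟨D, rfl⟩ := Pic0.mk_surjective u
  obtain ⟨m, hm1, hm⟩ := exists_pow_smul_divisor_eq H g hx hnc hL (D : Divisor L F)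
  refine ⟨m, hm1, ?_⟩
  rw [SemilinearAut.pic0_smul_mk]
  exact congrArg Pic0.mk (Subtype.ext (by rw [SemilinearAut.coe_degZeroSMulHom, hm]))

end Fermat.Agent.MP.FIN.PlaceOrbit3
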