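/-
PROGRAMME MP, chapter FIN (helper3).  `X1Abs3` = the ABSTRACT form of (X1):

  `J` a DIVISIBLE abelian group with an additive action of a group `G`, `t : J →+ J` commuting with
  `g0 ∈ G` and KILLING TORSION, `red : J →+ P` equivariant (`red (g0 • u) = γ0 • red u`), the fixed
  points of every power `γ0 ^ m` (`m ≥ 1`) on `P` FINITE, `u ∈ J` with finite `g0`-orbit.
  Then `red (t u) = 0`.

Proof: `g := g0 ^ m` fixes `u`; `n := #Fix(γ0 ^ m)`; `n • v = u`; `g • v - v` is `n`-torsion, so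
`t v` is `g`-fixed, `red (t v) ∈ Fix(γ0 ^ m)`, and `red (t u) = n • red (t v) = 0`.

* `exists_pow_smul_eq_of_finite` : finite orbit ⇒ some power `g ^ m`, `m ≥ 1`, fixes the point;
* `red_eq_zero_of_fixed` : the core (additive maps `σ`, `γ`);
* `red_eq_zero` : the group-action form;
* `red_eq_zero_of_frob` : combined with (FIN) (`FinMain3.finite_fixed`): `P = Pic0 K F`, `γ0` a
  Frobenius-semilinear automorphism fixing a non-constant function.
-/
import Mathlib
import Fermat.Agent.MP.FIN.FinMain3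

set_option autoImplicit false
set_option linter.unusedSectionVars false

open AlgebraicCurve

namespace Fermat.Agent.MP.FIN.X1Abs3

open Fermat.Agent.RR.LSpace Fermat.Agent.J.DESC.NormalForm10
open Fermat.Agent.MP.FIN.FixedDiv3 Fermat.Agent.MP.FIN.FinMain3

/-- A point with finite orbit under the powers of `g` is fixed by some `g ^ m`, `m ≥ 1`. -/
theorem exists_pow_smul_eq_of_finite {G α : Type*} [Group G] [MulAction G α] (g : G) (u : α)
    (hfin : (Set.range fun i : ℕ => g ^ i • u).Finite) : ∃ m : ℕ, 1 ≤ m ∧ g ^ m • u = u := by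
  have hninj : ¬ Function.Injective fun i : ℕ => g ^ i • u := fun hinj =>
    (Set.infinite_range_of_injective hinj) hfin
  rw [Function.Injective] at hninj
  push Not at hninj
  obtain ⟨a, b, heq, hab⟩ := hninj
  have key : ∀ a b : ℕ, a < b → g ^ a • u = g ^ b • u → ∃ m : ℕ, 1 ≤ m ∧ g ^ m • u = u := by
    intro a b hlt heq
    refine ⟨b - a, by omega, ?_⟩
    have h1 : g ^ b = g ^ a * g ^ (b - a) := by
      rw [← pow_add]; congr 1; omega
    rw [h1, mul_smul] at heq
    exact (MulAction.injective (g ^ a) heq).symm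
  rcases lt_or_gt_of_ne hab with h | h
  · exact key a b h heq
  · exact key b a h heq.symm

/-- **Core of (X1).** -/
theorem red_eq_zero_of_fixed {J P : Type*} [AddCommGroup J] [AddCommGroup P]
    (hdiv : ∀ n : ℕ, 0 < n → ∀ u : J, ∃ v : J, n • v = u)
    (σ t : J →+ J) (hσt : ∀ u, t (σ u) = σ (t u))
    (htors : ∀ (u : J) (n : ℕ), 0 < n → n • u = 0 → t u = 0)
    (red : J →+ P) (γ : P →+ P) (hred : ∀ u, red (σ u) = γ (red u))
    (hfin : {y : P | γ y = y}.Finite) {u : J} (hu : σ u = u) : red (t u) = 0 := by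
  -- the finite group of fixed points
  let Fix : AddSubgroup P := AddMonoidHom.eqLocus γ (AddMonoidHom.id P)
  have hFix : ∀ y : P, y ∈ Fix ↔ γ y = y := fun y => Iff.rfl
  have hfinFix : Finite Fix := hfin.subset fun y hy => (hFix y).mp hy
  set n := Nat.card Fix with hn
  have hn0 : 0 < n := Nat.card_pos
  obtain ⟨v, hv⟩ := hdiv n hn0 u
  -- `σ v - v` is `n`-torsion
  have h1 : n • (σ v - v) = 0 := by
    rw [smul_sub, ← map_nsmul, hv, hu, sub_self]
  have h2 : t (σ v - v) = 0 := htors _ n hn0 h1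
  have h3 : σ (t v) = t v := by
    rw [map_sub, sub_eq_zero] at h2
    rw [← hσt, h2]
  have h4 : red (t v) ∈ Fix := by
    rw [hFix, ← hred, h3]
  have h5 : n • (⟨red (t v), h4⟩ : Fix) = 0 := card_nsmul_eq_zero'
  have h6 : n • red (t v) = 0 := by
    have := congrArg (fun y : Fix => (y : P)) h5
    simpa using this
  rw [← hv, map_nsmul, map_nsmul, h6]

/-- **(X1), group-action form.** -/
theorem red_eq_zero {G Γ J P : Type*} [Group G] [Group Γ] [AddCommGroup J] [AddCommGroup P]
    [DistribMulAction G J] [DistribMulAction Γ P]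
    (hdiv : ∀ n : ℕ, 0 < n → ∀ u : J, ∃ v : J, n • v = u)
    (t : J →+ J) (g0 : G) (ht : ∀ u, t (g0 • u) = g0 • t u)
    (htors : ∀ (u : J) (n : ℕ), 0 < n → n • u = 0 → t u = 0)
    (red : J →+ P) (γ0 : Γ) (hred : ∀ u, red (g0 • u) = γ0 • red u)
    (hfin : ∀ m : ℕ, 1 ≤ m → {y : P | γ0 ^ m • y = y}.Finite)
    (u : J) (horb : (Set.range fun i : ℕ => g0 ^ i • u).Finite) : red (t u) = 0 := by
  obtain ⟨m, hm1, hm⟩ := exists_pow_smul_eq_of_finite g0 u horb
  have htm : ∀ (i : ℕ) (u : J), t (g0 ^ i • u) = g0 ^ i • t u := by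
    intro i
    induction i with
    | zero => intro u; rw [pow_zero, one_smul, one_smul]
    | succ i ih => intro u; rw [pow_succ, mul_smul, ih, ht, mul_smul]
  have hredm : ∀ (i : ℕ) (u : J), red (g0 ^ i • u) = γ0 ^ i • red u := by
    intro i
    induction i with
    | zero => intro u; rw [pow_zero, one_smul, pow_zero, one_smul]
    | succ i ih => intro u; rw [pow_succ, mul_smul, ih, hred, pow_succ, mul_smul]
  exact red_eq_zero_of_fixed hdiv (DistribSMul.toAddMonoidHom J (g0 ^ m)) t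
    (fun u => htm m u) htors red (DistribSMul.toAddMonoidHom P (γ0 ^ m))
    (fun u => hredm m u) (hfin m hm1) hm

/-- **(X1) with (FIN) plugged in.**  `γ0` a Frobenius-semilinear automorphism of `F / K` fixing a
non-constant function. -/
theorem red_eq_zero_of_frob {K F : Type*} [Field K] [Field F] [Algebra K F]
    (H : LHyp K F) (hR : RiemannHyp K F) (γ0 : SemilinearAut K F) {q : ℕ} (hq : 2 ≤ q)
    (hγ : ∀ c : K, SemilinearAut.baseAut γ0 c = c ^ q) {x : F} (hx : γ0 • x = x)
    (hnc : ∀ c : K, x ≠ algebraMap K F c)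
    {G J : Type*} [Group G] [AddCommGroup J] [DistribMulAction G J]
    (hdiv : ∀ n : ℕ, 0 < n → ∀ u : J, ∃ v : J, n • v = u)
    (t : J →+ J) (g0 : G) (ht : ∀ u, t (g0 • u) = g0 • t u)
    (htors : ∀ (u : J) (n : ℕ), 0 < n → n • u = 0 → t u = 0)
    (red : J →+ Pic0 K F) (hred : ∀ u, red (g0 • u) = γ0 • red u)
    (u : J) (horb : (Set.range fun i : ℕ => g0 ^ i • u).Finite) : red (t u) = 0 := by
  refine red_eq_zero hdiv t g0 ht htors red γ0 hred (fun m hm1 => ?_) u horb
  have hQ : 2 ≤ q ^ m := by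
    calc 2 ≤ q := hq
      _ = q ^ 1 := (pow_one q).symm
      _ ≤ q ^ m := Nat.pow_le_pow_right (by omega) hm1
  exact finite_fixed H hR (γ0 ^ m) hQ (IsFrob.pow (g := γ0) hγ m) (pow_smul_eq hx m) hnc

end Fermat.Agent.MP.FIN.X1Abs3
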