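/-
PROGRAMME MP, chapter FIN (helper3).  `X1Red3` = (X1) FOR A GOOD-REDUCTION DATUM with an automorphism.

  `𝔻 : RedDatum L F k Ft` (FF/RED/RedDatum7), `α : RedAut 𝔻` (FF/RED/RedAut7) with
  * `α.gt` Frobenius-semilinear (`baseAut α.gt c = c ^ q`, `2 ≤ q`), fixing a non-constant `xt ∈ Ft`,
    and Riemann's inequality on `Ft / k`;
  * `α.g` fixing a non-constant `x ∈ F`, its base automorphism having finite orbits on `L`;
  * `Pic0 L F` divisible;  `t : Pic0 L F →+ Pic0 L F` commuting with `α.g` and killing torsion.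
  Then `redPic 𝔻 (t u) = 0` for EVERY `u`.

* `finite_range_of_pow_fixed` : `g ^ m • u = u`, `m ≥ 1` ⇒ the `ℕ`-orbit of `u` is finite;
* `redPic_eq_zero_of_redAut` : the statement above.
-/
import Mathlib
import Fermat.Agent.MP.FIN.X1Abs3
import Fermat.Agent.MP.FIN.PlaceOrbit3
import Fermat.Agent.FF.INST.Conj0

set_option autoImplicit false
set_option linter.unusedSectionVars false

open AlgebraicCurve

namespace Fermat.Agent.MP.FIN.X1Red3

open Fermat.Agent.RR.LSpace Fermat.Agent.J.DESC.NormalForm10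
open Fermat.Agent.FF.RED.RedDatum7 Fermat.Agent.FF.RED.RedAut7 Fermat.Agent.FF.KER.Ker0
open Fermat.Agent.MP.FIN.X1Abs3 Fermat.Agent.MP.FIN.PlaceOrbit3

theorem finite_range_of_pow_fixed {G α : Type*} [Group G] [MulAction G α] (g : G) (u : α) {m : ℕ}
    (hm : 1 ≤ m) (h : g ^ m • u = u) : (Set.range fun i : ℕ => g ^ i • u).Finite := by
  have hpow : ∀ j : ℕ, (g ^ m) ^ j • u = u := by
    intro j
    induction j with
    | zero => rw [pow_zero, one_smul]
    | succ j ih => rw [pow_succ, mul_smul, h, ih]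
  refine ((Set.finite_lt_nat m).image fun i : ℕ => g ^ i • u).subset ?_
  rintro _ ⟨i, rfl⟩
  refine ⟨i % m, Nat.mod_lt i (by omega), ?_⟩
  show g ^ (i % m) • u = g ^ i • u
  conv_rhs => rw [← Nat.mod_add_div i m, pow_add, pow_mul, mul_smul, hpow]

variable {L F : Type} {k Ft : Type*} [Field L] [Field F] [Algebra L F] [Field k] [Field Ft]
  [Algebra k Ft]

/-- **(X1) for a good-reduction datum with a Frobenius-type automorphism.** -/
theorem redPic_eq_zero_of_redAut (𝔻 : RedDatum L F k Ft) (α : RedAut 𝔻)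
    (hR : RiemannHyp k Ft) {q : ℕ} (hq : 2 ≤ q)
    (hα : ∀ c : k, SemilinearAut.baseAut α.gt c = c ^ q)
    {xt : Ft} (hxt : α.gt • xt = xt) (hnct : ∀ c : k, xt ≠ algebraMap k Ft c)
    {x : F} (hx : α.g • x = x) (hnc : ∀ c : L, x ≠ algebraMap L F c)
    (hL : ∀ c : L, ∃ m : ℕ, 1 ≤ m ∧ SemilinearAut.baseAut (α.g ^ m) c = c)
    (hdiv : ∀ n : ℕ, 0 < n → ∀ u : Pic0 L F, ∃ v : Pic0 L F, n • v = u)
    (t : Pic0 L F →+ Pic0 L F) (ht : ∀ u, t (α.g • u) = α.g • t u)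
    (htors : ∀ (u : Pic0 L F) (n : ℕ), 0 < n → n • u = 0 → t u = 0) (u : Pic0 L F) :
    redPic 𝔻 (t u) = 0 := by
  obtain ⟨m, hm1, hm⟩ := exists_pow_smul_pic_eq 𝔻.HL α.g hx hnc hL u
  exact red_eq_zero_of_frob 𝔻.Hk hR α.gt hq hα hxt hnct hdiv t α.g ht htors (redPic 𝔻)
    (fun u => Fermat.Agent.FF.INST.Conj0.redPic_smul_redAut α u) u
    (finite_range_of_pow_fixed α.g u hm1 hm)

end Fermat.Agent.MP.FIN.X1Red3
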