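/-
PROGRAMME MP, chapter FIN (helper3).  `X1Inst3` = (X1), CONCRETE: for the good-reduction datum
`FF/IFACE/Inst1.redDatum` of `X₀(M)` along a valuation subring `A` of `ℚ̄` over `ℓ ∤ M`:

  every endomorphism `t` of `JZero M = Pic⁰(ℚ̄·F_M)` which COMMUTES WITH `G_ℚ` and KILLS TORSION has its
  image in the kernel of reduction:  `redPic 𝔻 (t u) = 0` for all `u`.

Inputs: a Frobenius element `σ ∈ D_A` (`ES/FROB/FrobFacts12.exists_isFrobeniusAt_of`), the automorphism
`GalDatum1.redAut … ⟨σ, _⟩` of the datum (`gt = galRes`, coefficientwise Frobenius), the Hauptmodul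
`T.S0.s` (rational coefficients, `CoeffChart.smul_s`) and its reduction (`CoeffChart.sym`), Riemann's
inequality on the special fibre (`RR/Riemann` + `ES/RED/SumOrdSep15`), divisibility of `JZero M`
(`MW/A/NSGlue2.jzero_divisible`), and `X1Red3.redPic_eq_zero_of_redAut`.

* `riemannHyp_sep` : Riemann's inequality for a separating generator, any characteristic;
* `riemannHyp_red` : … for the special fibre of the concrete datum;
* `exists_pow_apply_eq` : finite orbits of `σ` on `ℚ̄`;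
* **`redPic_eq_zero`** : the concrete (X1).
-/
import Mathlib
import Fermat.Agent.MP.FIN.X1Red3
import Fermat.Agent.FF.IFACE.GalDatum1
import Fermat.Agent.FF.INST.Orbit0
import Fermat.Agent.ES.FROB.FrobFacts12
import Fermat.Agent.ES.RED.SumOrdSep15
import Fermat.Agent.RR.Riemann
import Fermat.Agent.MW.A.NSGlue2

set_option autoImplicit false
set_option linter.unusedSectionVars false
set_option linter.style.longLine false
set_option synthInstance.maxHeartbeats 400000

noncomputable section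

open AlgebraicCurve ModularCurve HahnSeries IntermediateField

namespace Fermat.Agent.MP.FIN.X1Inst3

open Fermat.Agent.ES.RED.Contract8 Fermat.Agent.ES.RED.TwoCharts8 Fermat.Agent.ES.RED.GaloisInst21
  Fermat.Agent.ES.RED.GaussRing15 Fermat.Agent.ES.RED.GaloisRed21
  Fermat.Agent.X0 Fermat.Agent.X0.FF Fermat.Agent.RED.Interface4 Fermat.Agent.RED.BASE
  Fermat.Agent.FF.IFACE.GaussVal1 Fermat.Agent.FF.IFACE.GalInst1 Fermat.Agent.FF.IFACE.Inst1
  Fermat.Agent.FF.IFACE.GalDatum1
  Fermat.Agent.FF.RED.RedDatum7 Fermat.Agent.FF.RED.RedAut7 Fermat.Agent.FF.KER.Ker0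
  Fermat.Agent.RR.LSpace Fermat.Agent.J.DESC.NormalForm10

/-- Riemann's inequality for a SEPARATING generator (any characteristic). -/
theorem riemannHyp_sep {K F : Type*} [Field K] [Field F] [Algebra K F] [IsAlgClosed K]
    (H : LHyp K F) {x : F} (hx : IsGen K x) [Algebra.IsSeparable K⟮x⟯ F] : RiemannHyp K F :=
  haveI := hx.finiteDimensional
  Fermat.Agent.RR.Riemann.riemann_inequality' H hx.transcendental
    (Fermat.Agent.ES.RED.SumOrdSep15.sum_ord_poles_sep hx)

/-- a transcendental generator is not constant. -/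
theorem ne_algebraMap_of_isGen {K F : Type*} [Field K] [Field F] [Algebra K F] {x : F}
    (hx : IsGen K x) (c : K) : x ≠ algebraMap K F c := fun h =>
  hx.transcendental (h ▸ isAlgebraic_algebraMap c)

/-- finite orbits of the powers of `σ ∈ G_ℚ` on `ℚ̄`. -/
theorem exists_pow_apply_eq (σ : Qbar ≃ₐ[ℚ] Qbar) (c : Qbar) :
    ∃ m : ℕ, 1 ≤ m ∧ (σ ^ m) c = c := by
  have : Algebra.IsAlgebraic ℚ Qbar := AlgebraicClosure.isAlgebraic ℚ
  have hfin : (Set.range fun i : ℕ => σ ^ i • c).Finite :=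
    (Fermat.Agent.FF.INST.Orbit0.finite_orbit_algEquiv (K := ℚ) c).subset
      (by rintro _ ⟨i, rfl⟩; exact ⟨σ ^ i, rfl⟩)
  exact Fermat.Agent.MP.FIN.X1Abs3.exists_pow_smul_eq_of_finite σ c hfin

section Inst

variable {M : ℕ} [NeZero M] (n e : ℕ) [NeZero n] (ℓ : ℕ) [Fact ℓ.Prime] (hℓM : ¬ ℓ ∣ M)
  (hmem : Interface12.TMem n e M) (hgen : Interface12.TGenBase n e)
  (A : ValuationSubring Qbar) (hA : A.LiesOverPrime ℓ)
  {x : X0.FF M} {hx : IsGen Qbar x}
  (T : TwoCharts A hx ↥(modularFunctionFieldFullC (kA A) M))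
  (hS0 : CoeffChart (F₀ := modularFunctionFieldFull M) T.S0)
  (hS1 : CoeffChart (F₀ := modularFunctionFieldFull M) T.S1)
  (hs0 : T.S0.s = Interface12.tF M hmem)
  (peel0 : ∀ (P : Place Qbar (X0.FF M)) (hP : T.S0.InChart P), T.S0.PeelA P hP)
  (peel1 : ∀ (P : Place Qbar (X0.FF M)) (hP : T.S1.InChart P), T.S1.PeelA P hP)

include hℓM hgen hA hS0 hS1 hs0 peel0 peel1 in
/-- Riemann's inequality on the special fibre of the concrete datum. -/
theorem riemannHyp_red : RiemannHyp (kA A) ↥(modularFunctionFieldFullC (kA A) M) := by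
  have : IsAlgClosed (kA A) := Fermat.Agent.ES.KRON.KronInst10.isAlgClosed_residueField A
  have hin := Fermat.Agent.ES.RED.RedInst15.chartInputs_both n e M ℓ hℓM hmem hgen A hA T hS0 hS1
    hs0 peel0 peel1
  have := hin.1.sep
  exact riemannHyp_sep (lHyp_red n e ℓ hℓM hmem hgen A hA T hS0 hS1 hs0 peel0 peel1) hin.1.gent

include hS0 in
/-- the reduced Hauptmodul is fixed by every `galRes g`. -/
theorem galRes_smul_red_sB (g : A.decompositionSubgroup ℚ) :
    galRes A M g • T.S0.red T.S0.sB = T.S0.red T.S0.sB := by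
  have sym := hS0.sym g
  have h1 : sym.τB T.S0.sB = T.S0.sB := by
    apply Subtype.ext
    rw [sym.coe_τB]
    exact sym.smul_s
  have h2 := sym.red_τB T.S0.sB
  rw [h1] at h2
  exact h2.symm

/-- **(X1), concrete.** -/
theorem redPic_eq_zero
    (t : Pic0 Qbar (X0.FF M) →+ Pic0 Qbar (X0.FF M))
    (ht : ∀ (σ : Qbar ≃ₐ[ℚ] Qbar) (u : Pic0 Qbar (X0.FF M)),
      t (arithmeticGalois (modularFunctionFieldFull M) σ • u) =
        arithmeticGalois (modularFunctionFieldFull M) σ • t u)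
    (htors : ∀ (u : Pic0 Qbar (X0.FF M)) (m : ℕ), 0 < m → m • u = 0 → t u = 0)
    (u : Pic0 Qbar (X0.FF M)) :
    redPic (redDatum n e ℓ hℓM hmem hgen A hA T hS0 hS1 hs0 peel0 peel1) (t u) = 0 := by
  have : IsAlgClosed (kA A) := Fermat.Agent.ES.KRON.KronInst10.isAlgClosed_residueField A
  have hin := Fermat.Agent.ES.RED.RedInst15.chartInputs_both n e M ℓ hℓM hmem hgen A hA T hS0 hS1
    hs0 peel0 peel1
  have hℓ : ℓ.Prime := Fact.out
  obtain ⟨σ, hσ⟩ := Fermat.Agent.ES.FROB.FrobFacts12.exists_isFrobeniusAt_of ℓ hℓ A hA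
  set g0 : A.decompositionSubgroup ℚ := ⟨σ, hσ.mem_decompositionSubgroup⟩ with hg0
  set α := redAut n e ℓ hℓM hmem hgen A hA T hS0 hS1 hs0 peel0 peel1 g0 with hαdef
  have hR := riemannHyp_red n e ℓ hℓM hmem hgen A hA T hS0 hS1 hs0 peel0 peel1
  have hpow : ∀ m : ℕ, α.g ^ m = arithmeticGalois (modularFunctionFieldFull M) (σ ^ m) := by
    intro m
    show (arithmeticGalois (modularFunctionFieldFull M) σ) ^ m = _
    rw [map_pow]
  refine Fermat.Agent.MP.FIN.X1Red3.redPic_eq_zero_of_redAut _ α hR (q := ℓ) hℓ.two_le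
    (fun c => psiRes_of_isFrobeniusAt A hσ c)
    (xt := T.S0.red T.S0.sB) (galRes_smul_red_sB A T hS0 g0) (ne_algebraMap_of_isGen hin.1.gent)
    (x := T.S0.s) (hS0.smul_s σ) (ne_algebraMap_of_isGen hin.1.gen) ?_ ?_ t (fun u => ht σ u) htors u
  · intro c
    obtain ⟨m, hm1, hm⟩ := exists_pow_apply_eq σ c
    refine ⟨m, hm1, ?_⟩
    rw [hpow m]
    exact hm
  · intro m hm u
    exact Fermat.Agent.MW.A.NSGlue2.jzero_divisible M m hm u

end Inst

end Fermat.Agent.MP.FIN.X1Inst3
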