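/-
PROGRAMME MP, chapter FIN (helper3).  `X1Good3` = (X1) for THE good-reduction datum
`MP/TAU/GoodDatum9.goodDatum hpM h4` of `X₀(M₀)` along `padicPlace p` (`4 ∣ M₀`, `p ∤ M₀`):

  every endomorphism `t` of `JZero M₀` commuting with `G_ℚ` and killing torsion has its image in the
  kernel of reduction `(Ker0.redPic (goodDatum hpM h4)).ker`.

* `redPic_goodDatum_eq_zero`, `mem_ker_redPic_goodDatum`;
* `riemannHyp_good` : Riemann's inequality on the special fibre.
-/
import Mathlib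
import Fermat.Agent.MP.FIN.X1Inst3
import Fermat.Agent.MP.TAU.GoodDatum9

set_option autoImplicit false
set_option linter.unusedSectionVars false
set_option linter.style.longLine false
set_option synthInstance.maxHeartbeats 400000

open AlgebraicCurve ModularCurve IntermediateField
open scoped MatrixGroups

noncomputable section

namespace Fermat.Agent.MP.FIN.X1Good3

open Fermat.Agent.RED.Interface4 Fermat.Agent.RED.BASE Fermat.Agent.RED.BASE.Hauptmodul12
  Fermat.Agent.RED.BASE.Interface12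
  Fermat.Agent.ES.RED Fermat.Agent.ES.RED.ModelInstFinal4 Fermat.Agent.ES.RED.TwoCharts8
  Fermat.Agent.ES.RED.Contract8
  Fermat.Agent.FF.RED.RedDatum7 Fermat.Agent.FF.IFACE.Inst1 Fermat.Agent.FF.KER.Ker0
  Fermat.Agent.FF.BASE.Place2 Fermat.Agent.X0.FF Fermat.Agent.MP.TAU.GoodDatum9
  Fermat.Agent.J.DESC.NormalForm10

variable {p M₀ : ℕ} [Fact p.Prime] [NeZero M₀] (hpM : ¬ p ∣ M₀) (h4 : 4 ∣ M₀)

include hpM h4 in
/-- Riemann's inequality on the special fibre of `X₀(M₀)` at `p`. -/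
theorem riemannHyp_good :
    RiemannHyp (kA (padicPlace p)) ↥(modularFunctionFieldFullC (kA (padicPlace p)) M₀) :=
  Fermat.Agent.MP.FIN.X1Inst3.riemannHyp_red 4 8 p hpM (tMem4 h4) (tGenBase' baseHyp_four)
    (padicPlace p) (liesOverPrime (ℓ := p)) (goodT hpM h4)
    (coeffChart0_final 4 8 M₀ p hpM (tMem4 h4) (tGenBase' baseHyp_four) (padicPlace p)
      (liesOverPrime (ℓ := p)))
    (coeffChart1_final 4 8 M₀ p hpM (tMem4 h4) (tGenBase' baseHyp_four) (padicPlace p)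
      (liesOverPrime (ℓ := p)))
    rfl
    (peelA0_final 4 8 M₀ p hpM (tMem4 h4) (tGenBase' baseHyp_four) (padicPlace p)
      (liesOverPrime (ℓ := p)) baseHyp_four h4 (cv4 h4) (hcv4 h4))
    (peelA1_final 4 8 M₀ p hpM (tMem4 h4) (tGenBase' baseHyp_four) (padicPlace p)
      (liesOverPrime (ℓ := p)) baseHyp_four h4 (cv4 h4) (hcv4 h4))

/-- **(X1) for `goodDatum`.** -/
theorem redPic_goodDatum_eq_zero
    (t : Pic0 Qbar (X0.FF M₀) →+ Pic0 Qbar (X0.FF M₀))
    (ht : ∀ (σ : Qbar ≃ₐ[ℚ] Qbar) (u : Pic0 Qbar (X0.FF M₀)),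
      t (arithmeticGalois (modularFunctionFieldFull M₀) σ • u) =
        arithmeticGalois (modularFunctionFieldFull M₀) σ • t u)
    (htors : ∀ (u : Pic0 Qbar (X0.FF M₀)) (m : ℕ), 0 < m → m • u = 0 → t u = 0)
    (u : Pic0 Qbar (X0.FF M₀)) :
    redPic (goodDatum hpM h4) (t u) = 0 :=
  Fermat.Agent.MP.FIN.X1Inst3.redPic_eq_zero 4 8 p hpM (tMem4 h4) (tGenBase' baseHyp_four)
    (padicPlace p) (liesOverPrime (ℓ := p)) (goodT hpM h4)
    (coeffChart0_final 4 8 M₀ p hpM (tMem4 h4) (tGenBase' baseHyp_four) (padicPlace p)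
      (liesOverPrime (ℓ := p)))
    (coeffChart1_final 4 8 M₀ p hpM (tMem4 h4) (tGenBase' baseHyp_four) (padicPlace p)
      (liesOverPrime (ℓ := p)))
    rfl
    (peelA0_final 4 8 M₀ p hpM (tMem4 h4) (tGenBase' baseHyp_four) (padicPlace p)
      (liesOverPrime (ℓ := p)) baseHyp_four h4 (cv4 h4) (hcv4 h4))
    (peelA1_final 4 8 M₀ p hpM (tMem4 h4) (tGenBase' baseHyp_four) (padicPlace p)
      (liesOverPrime (ℓ := p)) baseHyp_four h4 (cv4 h4) (hcv4 h4))
    t ht htors u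

/-- … as membership in the kernel of reduction. -/
theorem mem_ker_redPic_goodDatum
    (t : Pic0 Qbar (X0.FF M₀) →+ Pic0 Qbar (X0.FF M₀))
    (ht : ∀ (σ : Qbar ≃ₐ[ℚ] Qbar) (u : Pic0 Qbar (X0.FF M₀)),
      t (arithmeticGalois (modularFunctionFieldFull M₀) σ • u) =
        arithmeticGalois (modularFunctionFieldFull M₀) σ • t u)
    (htors : ∀ (u : Pic0 Qbar (X0.FF M₀)) (m : ℕ), 0 < m → m • u = 0 → t u = 0)
    (u : Pic0 Qbar (X0.FF M₀)) :
    t u ∈ (redPic (goodDatum hpM h4)).ker :=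
  (AddMonoidHom.mem_ker).mpr (redPic_goodDatum_eq_zero hpM h4 t ht htors u)

end Fermat.Agent.MP.FIN.X1Good3
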